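import Mathlib

set_option autoImplicit false

open UpperHalfPlane Derivative Filter MeasureTheory
open scoped MatrixGroups ModularForm Manifold Topology Real

namespace Fermat.Agent.S22_helper21

/-- Cauchy estimate: if `G` is holomorphic on `ℍ` and tends to `0` at `i∞`, so does `D G`. -/
theorem isZeroAtImInfty_D {G : ℍ → ℂ} (hG : MDiff G) (hzero : IsZeroAtImInfty G) :
    IsZeroAtImInfty (D G) := by
  rw [isZeroAtImInfty_iff] at hzero ⊢
  intro ε hε
  obtain ⟨A, hA⟩ := hzero ε hε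
  refine ⟨max A 1 + 1, fun z hz => ?_⟩
  rw [UpperHalfPlane.mdifferentiable_iff] at hG
  have hsub : Metric.closedBall (z : ℂ) 1 ⊆ {w : ℂ | 0 < w.im} := by
    intro w hw
    have h1 : |(w - (z : ℂ)).im| ≤ ‖w - (z : ℂ)‖ := Complex.abs_im_le_norm _
    have h2 : ‖w - (z : ℂ)‖ ≤ 1 := by simpa [dist_eq_norm] using hw
    have h3 := abs_le.mp (h1.trans h2)
    have h4 : (w - (z : ℂ)).im = w.im - z.im := by simp
    have h5 : (1 : ℝ) ≤ max A 1 := le_max_right _ _
    show 0 < w.im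
    linarith [h3.1]
  have hdc : DiffContOnCl ℂ (G ∘ ofComplex) (Metric.ball (z : ℂ) 1) :=
    hG.diffContOnCl_ball hsub
  have hsph : ∀ w ∈ Metric.sphere (z : ℂ) 1, ‖(G ∘ ofComplex) w‖ ≤ ε := by
    intro w hw
    have hw' : w ∈ Metric.closedBall (z : ℂ) 1 := Metric.sphere_subset_closedBall hw
    have hwim : 0 < w.im := hsub hw'
    have h1 : |(w - (z : ℂ)).im| ≤ ‖w - (z : ℂ)‖ := Complex.abs_im_le_norm _
    have h2 : ‖w - (z : ℂ)‖ ≤ 1 := by simpa [dist_eq_norm] using hw'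
    have h3 := abs_le.mp (h1.trans h2)
    have h4 : (w - (z : ℂ)).im = w.im - z.im := by simp
    have h5 : A ≤ max A 1 := le_max_left _ _
    rw [Function.comp_apply, ofComplex_apply_of_im_pos hwim]
    apply hA
    show A ≤ w.im
    linarith [h3.1]
  have hder := Complex.norm_deriv_le_of_forall_mem_sphere_norm_le one_pos hdc hsph
  rw [div_one] at hder
  show ‖(2 * π * Complex.I)⁻¹ * deriv (G ∘ ofComplex) z‖ ≤ ε
  rw [norm_mul, norm_inv]
  have h2pi : ‖(2 * π * Complex.I : ℂ)‖ = 2 * π := by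
    simp [abs_of_pos Real.pi_pos]
  rw [h2pi]
  have hpi : (1 : ℝ) ≤ 2 * π := by linarith [Real.pi_gt_three]
  calc (2 * π)⁻¹ * ‖deriv (G ∘ ofComplex) z‖ ≤ 1 * ‖deriv (G ∘ ofComplex) z‖ := by
        apply mul_le_mul_of_nonneg_right _ (norm_nonneg _)
        exact inv_le_one_of_one_le₀ hpi
    _ = ‖deriv (G ∘ ofComplex) z‖ := one_mul _
    _ ≤ ε := hder


/-- `deriv (G ∘ ofComplex)` in terms of `D G`. -/
theorem deriv_comp_ofComplex_eq (G : ℍ → ℂ) (z : ℍ) :
    deriv (G ∘ ofComplex) z = 2 * π * Complex.I * D G z := by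
  show deriv (G ∘ ofComplex) z = 2 * π * Complex.I * ((2 * π * Complex.I)⁻¹ * deriv (G ∘ ofComplex) z)
  have : (2 * π * Complex.I : ℂ) ≠ 0 := by
    simp [Real.pi_ne_zero]
  field_simp

/-- Decay propagation along vertical rays: a bound `C (im w)⁻¹ ^ A exp (-c im w)` on `D G` gives
the bound `(2πC/c) (im z)⁻¹ ^ A exp (-c im z)` on `G`, if `G → 0` at `i∞`. -/
theorem decay_of_D_decay {G : ℍ → ℂ} (hG : MDiff G) (hzero : IsZeroAtImInfty G) {C c : ℝ} {A : ℕ}
    (hc : 0 < c) (hC : 0 ≤ C)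
    (hDG : ∀ w : ℍ, ‖D G w‖ ≤ C * (w.im)⁻¹ ^ A * Real.exp (-c * w.im)) (z : ℍ) :
    ‖G z‖ ≤ (2 * π * C / c) * (z.im)⁻¹ ^ A * Real.exp (-c * z.im) := by
  rw [UpperHalfPlane.mdifferentiable_iff] at hG
  set x : ℝ := z.re with hx
  set y : ℝ := z.im with hy
  have hy0 : 0 < y := z.im_pos
  -- the curve `t ↦ x + t i`
  set γ : ℝ → ℂ := fun t => (x : ℂ) + (t : ℂ) * Complex.I with hγ
  have hγim : ∀ t, (γ t).im = t := by intro t; simp [hγ]
  have hγderiv : ∀ t, HasDerivAt γ Complex.I t := by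
    intro t
    show HasDerivAt (fun t : ℝ => (x : ℂ) + (t : ℂ) * Complex.I) Complex.I t
    have h1 : HasDerivAt (fun t : ℝ => (t : ℂ)) 1 t := Complex.ofRealCLM.hasDerivAt
    have h2 := (h1.mul_const Complex.I).const_add (x : ℂ)
    rw [one_mul] at h2
    exact h2
  set u : ℝ → ℂ := fun t => (G ∘ ofComplex) (γ t) with hu
  set u' : ℝ → ℂ := fun t => Complex.I * deriv (G ∘ ofComplex) (γ t) with hu'
  have hopen : IsOpen {w : ℂ | 0 < w.im} := isOpen_upperHalfPlaneSet
  have hdiffAt : ∀ t, 0 < t → DifferentiableAt ℂ (G ∘ ofComplex) (γ t) := by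
    intro t ht
    apply hG.differentiableAt
    apply hopen.mem_nhds
    show 0 < (γ t).im
    rw [hγim]; exact ht
  have huderiv : ∀ t, 0 < t → HasDerivAt u (u' t) t := by
    intro t ht
    have h1 := (hdiffAt t ht).hasDerivAt
    have h2 := h1.scomp t (hγderiv t)
    exact h2
  -- bound on `u'`
  have hu'bound : ∀ t, y ≤ t → ‖u' t‖ ≤ 2 * π * C * y⁻¹ ^ A * Real.exp (-c * t) := by
    intro t ht
    have ht0 : 0 < t := lt_of_lt_of_le hy0 ht
    have him : 0 < (γ t).im := by rw [hγim]; exact ht0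
    set w : ℍ := ⟨γ t, him⟩ with hw
    have hwim : w.im = t := hγim t
    have h1 : deriv (G ∘ ofComplex) (γ t) = 2 * π * Complex.I * D G w :=
      deriv_comp_ofComplex_eq G w
    rw [hu']
    simp only
    rw [h1, norm_mul, norm_mul, Complex.norm_I, one_mul]
    have h2pi : ‖(2 * π * Complex.I : ℂ)‖ = 2 * π := by
      simp [abs_of_pos Real.pi_pos]
    rw [h2pi]
    have h3 := hDG w
    rw [hwim] at h3
    have h4 : t⁻¹ ^ A ≤ y⁻¹ ^ A := by
      apply pow_le_pow_left₀ (by positivity)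
      exact inv_anti₀ hy0 ht
    calc 2 * π * ‖D G w‖ ≤ 2 * π * (C * t⁻¹ ^ A * Real.exp (-c * t)) := by
          apply mul_le_mul_of_nonneg_left h3 (by positivity)
      _ ≤ 2 * π * (C * y⁻¹ ^ A * Real.exp (-c * t)) := by
          apply mul_le_mul_of_nonneg_left _ (by positivity)
          apply mul_le_mul_of_nonneg_right _ (Real.exp_pos _).le
          exact mul_le_mul_of_nonneg_left h4 hC
      _ = 2 * π * C * y⁻¹ ^ A * Real.exp (-c * t) := by ring
  -- integrability
  have hgint : IntegrableOn (fun t => 2 * π * C * y⁻¹ ^ A * Real.exp (-c * t)) (Set.Ioi y) :=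
    (integrableOn_exp_mul_Ioi (by linarith : -c < 0) y).const_mul _
  have hu'cont : ContinuousOn u' (Set.Ioi 0) := by
    have h1 : ContinuousOn (deriv (G ∘ ofComplex)) {w : ℂ | 0 < w.im} :=
      (hG.deriv hopen).continuousOn
    have h2 : ContinuousOn γ (Set.Ioi 0) := by
      apply Continuous.continuousOn
      rw [hγ]; fun_prop
    have h3 : Set.MapsTo γ (Set.Ioi 0) {w : ℂ | 0 < w.im} := by
      intro t ht
      show 0 < (γ t).im
      rw [hγim]; exact ht
    exact continuousOn_const.mul (h1.comp h2 h3)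
  have hu'meas : AEStronglyMeasurable u' (volume.restrict (Set.Ioi y)) := by
    apply ContinuousOn.aestronglyMeasurable _ measurableSet_Ioi
    apply hu'cont.mono
    intro t ht
    exact lt_trans hy0 ht
  have hu'int : IntegrableOn u' (Set.Ioi y) := by
    apply Integrable.mono' hgint hu'meas
    apply (ae_restrict_iff' measurableSet_Ioi).mpr
    exact Filter.Eventually.of_forall fun t ht => hu'bound t (le_of_lt ht)
  -- limit at infinity
  have hulim : Tendsto u atTop (𝓝 0) := by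
    have h1 : Tendsto γ atTop (comap Complex.im atTop) := by
      rw [tendsto_comap_iff]
      have : Complex.im ∘ γ = id := by funext t; exact hγim t
      rw [this]; exact tendsto_id
    exact hzero.comp (tendsto_comap_im_ofComplex.comp h1)
  have hucont : ContinuousWithinAt u (Set.Ici y) y :=
    (huderiv y hy0).continuousAt.continuousWithinAt
  have hint := integral_Ioi_of_hasDerivAt_of_tendsto hucont
    (fun t ht => huderiv t (lt_trans hy0 ht)) hu'int hulim
  have huy : u y = G z := by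
    have : γ y = (z : ℂ) := by
      rw [hγ]
      apply Complex.ext <;> simp [hx, hy]
    show (G ∘ ofComplex) (γ y) = G z
    rw [this, Function.comp_apply, ofComplex_apply]
  rw [zero_sub, huy] at hint
  have hnorm : ‖G z‖ = ‖∫ t in Set.Ioi y, u' t‖ := by rw [hint, norm_neg]
  rw [hnorm]
  have hle := norm_integral_le_of_norm_le hgint
    ((ae_restrict_iff' measurableSet_Ioi).mpr
      (Filter.Eventually.of_forall fun t ht => hu'bound t (le_of_lt ht)))
  refine hle.trans (le_of_eq ?_)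
  rw [integral_const_mul, integral_exp_mul_Ioi (by linarith : -c < 0) y]
  field_simp


/-- A cusp form on `Γ₀(N)` of weight `k ≥ 0` satisfies a bound of the form
`C (im w)⁻¹ ^ A exp (-c im w)` on all of `ℍ`. -/
theorem cuspForm_decay_bound (N : ℕ) [NeZero N] {k : ℤ} (hk : 0 ≤ k)
    (f : CuspForm (CongruenceSubgroup.Gamma0 N) k) :
    ∃ (C c : ℝ) (A : ℕ), 0 ≤ C ∧ 0 < c ∧
      ∀ w : ℍ, ‖f w‖ ≤ C * (w.im)⁻¹ ^ A * Real.exp (-c * w.im) := by
  obtain ⟨c, hc, hO⟩ := CuspFormClass.exp_decay_atImInfty' f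
  obtain ⟨C', hC'pos, hC'⟩ := hO.exists_pos
  rw [Asymptotics.isBigOWith_iff, Filter.Eventually, atImInfty_mem] at hC'
  obtain ⟨A₀, hA₀⟩ := hC'
  obtain ⟨C₀, hC₀⟩ := CuspFormClass.exists_bound f
  have hC₀nn : 0 ≤ C₀ := by
    have h := hC₀ UpperHalfPlane.I
    have hpos : (0 : ℝ) < UpperHalfPlane.I.im ^ ((k : ℝ) / 2) :=
      Real.rpow_pos_of_pos UpperHalfPlane.I.im_pos _
    by_contra hneg
    rw [not_le] at hneg
    have : C₀ / UpperHalfPlane.I.im ^ ((k : ℝ) / 2) < 0 := div_neg_of_neg_of_pos hneg hpos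
    linarith [norm_nonneg (f UpperHalfPlane.I)]
  set A : ℕ := k.toNat with hA
  have hAk : ((k : ℝ)) / 2 ≤ (A : ℝ) := by
    have h1 : ((A : ℤ) : ℝ) = (k : ℝ) := by
      rw [hA, Int.toNat_of_nonneg hk]
    have h2 : (0 : ℝ) ≤ (k : ℝ) := by exact_mod_cast hk
    have h3 : ((A : ℤ) : ℝ) = (A : ℝ) := by norm_cast
    rw [← h3, h1]; linarith
  have hk2 : (0 : ℝ) ≤ (k : ℝ) / 2 := by
    have h2 : (0 : ℝ) ≤ (k : ℝ) := by exact_mod_cast hk
    linarith
  set A₁ : ℝ := max A₀ 1 with hA₁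
  have hA₁1 : 1 ≤ A₁ := le_max_right _ _
  set d : ℝ := c / 2 with hd
  have hdpos : 0 < d := by positivity
  set K₁ : ℝ := C₀ * A₁ ^ A * Real.exp (d * A₁) with hK₁
  set K₂ : ℝ := C' * (A.factorial * d⁻¹ ^ A) with hK₂
  have hK₁nn : 0 ≤ K₁ := by positivity
  have hK₂nn : 0 ≤ K₂ := by positivity
  refine ⟨K₁ + K₂, d, A, by positivity, hdpos, fun w => ?_⟩
  set y : ℝ := w.im with hy
  have hy0 : 0 < y := w.im_pos
  have hyA : (0 : ℝ) < y⁻¹ ^ A := by positivity
  rcases le_or_gt y A₁ with hle | hgt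
  · -- near the real axis
    have h1 : ‖f w‖ ≤ C₀ * A₁ ^ A * y⁻¹ ^ A := by
      refine (hC₀ w).trans ?_
      rcases le_or_gt y 1 with hy1 | hy1
      · have h2 : y ^ (A : ℝ) ≤ y ^ ((k : ℝ) / 2) :=
          Real.rpow_le_rpow_of_exponent_ge hy0 hy1 hAk
        rw [Real.rpow_natCast] at h2
        have h3 : C₀ / y ^ ((k : ℝ) / 2) ≤ C₀ / y ^ A :=
          div_le_div_of_nonneg_left hC₀nn (by positivity) h2
        refine h3.trans ?_
        have h4 : C₀ / y ^ A = C₀ * y⁻¹ ^ A := by rw [inv_pow, div_eq_mul_inv]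
        rw [h4]
        have h5 : (1 : ℝ) ≤ A₁ ^ A := one_le_pow₀ hA₁1
        calc C₀ * y⁻¹ ^ A = C₀ * 1 * y⁻¹ ^ A := by ring
          _ ≤ C₀ * A₁ ^ A * y⁻¹ ^ A := by
              apply mul_le_mul_of_nonneg_right _ hyA.le
              exact mul_le_mul_of_nonneg_left h5 hC₀nn
      · have h2 : (1 : ℝ) ≤ y ^ ((k : ℝ) / 2) := Real.one_le_rpow hy1.le hk2
        have h3 : C₀ / y ^ ((k : ℝ) / 2) ≤ C₀ := div_le_self hC₀nn h2
        refine h3.trans ?_
        have h4 : (1 : ℝ) ≤ A₁ ^ A * y⁻¹ ^ A := by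
          rw [← mul_pow]
          apply one_le_pow₀
          rw [← div_eq_mul_inv, le_div_iff₀ hy0, one_mul]
          exact hle
        calc C₀ = C₀ * 1 := (mul_one _).symm
          _ ≤ C₀ * (A₁ ^ A * y⁻¹ ^ A) := mul_le_mul_of_nonneg_left h4 hC₀nn
          _ = C₀ * A₁ ^ A * y⁻¹ ^ A := by ring
    have h2 : (1 : ℝ) ≤ Real.exp (d * A₁) * Real.exp (-d * y) := by
      rw [← Real.exp_add]
      apply Real.one_le_exp
      nlinarith
    calc ‖f w‖ ≤ C₀ * A₁ ^ A * y⁻¹ ^ A := h1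
      _ = C₀ * A₁ ^ A * y⁻¹ ^ A * 1 := (mul_one _).symm
      _ ≤ C₀ * A₁ ^ A * y⁻¹ ^ A * (Real.exp (d * A₁) * Real.exp (-d * y)) :=
          mul_le_mul_of_nonneg_left h2 (by positivity)
      _ = K₁ * y⁻¹ ^ A * Real.exp (-d * y) := by rw [hK₁]; ring
      _ ≤ (K₁ + K₂) * y⁻¹ ^ A * Real.exp (-d * y) := by
          apply mul_le_mul_of_nonneg_right _ (Real.exp_pos _).le
          apply mul_le_mul_of_nonneg_right _ hyA.le
          linarith
  · -- far from the real axis
    have hyA₀ : A₀ ≤ y := (le_max_left _ _).trans hgt.le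
    have h1 : ‖f w‖ ≤ C' * ‖Real.exp (-c * w.im)‖ := hA₀ w hyA₀
    rw [Real.norm_of_nonneg (Real.exp_pos _).le] at h1
    have hdy : 0 ≤ d * y := by positivity
    have h2 : (d * y) ^ A ≤ A.factorial * Real.exp (d * y) := by
      have h0 := Real.pow_div_factorial_le_exp (d * y) hdy A
      have hf : (0 : ℝ) < A.factorial := by positivity
      calc (d * y) ^ A = (d * y) ^ A / A.factorial * A.factorial := by field_simp
        _ ≤ Real.exp (d * y) * A.factorial := mul_le_mul_of_nonneg_right h0 hf.le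
        _ = A.factorial * Real.exp (d * y) := by ring
    have h3 : Real.exp (-d * y) ≤ (A.factorial * d⁻¹ ^ A) * y⁻¹ ^ A := by
      have h4 : Real.exp (-d * y) * (d * y) ^ A ≤ A.factorial := by
        calc Real.exp (-d * y) * (d * y) ^ A
            ≤ Real.exp (-d * y) * (A.factorial * Real.exp (d * y)) :=
              mul_le_mul_of_nonneg_left h2 (Real.exp_pos _).le
          _ = A.factorial * (Real.exp (-d * y) * Real.exp (d * y)) := by ring
          _ = A.factorial := by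
              rw [← Real.exp_add]; simp
      have h5 : (0 : ℝ) < (d * y) ^ A := by positivity
      have h6 : Real.exp (-d * y) ≤ A.factorial / (d * y) ^ A := by
        rw [le_div_iff₀ h5]; exact h4
      refine h6.trans (le_of_eq ?_)
      rw [mul_pow, inv_pow, inv_pow]
      field_simp
    have h7 : Real.exp (-c * y) = Real.exp (-d * y) * Real.exp (-d * y) := by
      rw [← Real.exp_add]; congr 1; rw [hd]; ring
    calc ‖f w‖ ≤ C' * Real.exp (-c * y) := h1
      _ = C' * Real.exp (-d * y) * Real.exp (-d * y) := by rw [h7]; ring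
      _ ≤ C' * ((A.factorial * d⁻¹ ^ A) * y⁻¹ ^ A) * Real.exp (-d * y) := by
          apply mul_le_mul_of_nonneg_right _ (Real.exp_pos _).le
          exact mul_le_mul_of_nonneg_left h3 hC'pos.le
      _ = K₂ * y⁻¹ ^ A * Real.exp (-d * y) := by rw [hK₂]; ring
      _ ≤ (K₁ + K₂) * y⁻¹ ^ A * Real.exp (-d * y) := by
          apply mul_le_mul_of_nonneg_right _ (Real.exp_pos _).le
          apply mul_le_mul_of_nonneg_right _ hyA.le
          linarith

end Fermat.Agent.S22_helper21
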