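import Mathlib

set_option autoImplicit false

open UpperHalfPlane CongruenceSubgroup ModularForm SlashInvariantForm Matrix.SpecialLinearGroup
open scoped MatrixGroups ModularForm Manifold Topology Real

namespace Fermat.Agent.S22_helper21

/-- Polynomial growth of `g ∣[-n] γ` on `{1 ≤ im}` from a bound `‖g z‖ ≤ C (1 + (im z)⁻¹ ^ A)`. -/
theorem slash_SL_poly_bound {g : ℍ → ℂ} {n A : ℕ} {C : ℝ}
    (hgrowth : ∀ z : ℍ, ‖g z‖ ≤ C * (1 + (z.im)⁻¹ ^ A)) (γ : SL(2, ℤ)) :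
    ∃ K : ℝ, 0 ≤ K ∧ ∀ τ : ℍ, 1 ≤ τ.im →
      ‖(g ∣[-(n : ℤ)] γ) τ‖ ≤ K * (1 + ‖(τ : ℂ)‖) ^ (2 * A + n) := by
  have hC : 0 ≤ C := by
    have h := hgrowth UpperHalfPlane.I
    have h1 : (0 : ℝ) < 1 + (UpperHalfPlane.I.im)⁻¹ ^ A := by positivity
    by_contra hneg
    rw [not_le] at hneg
    have : C * (1 + (UpperHalfPlane.I.im)⁻¹ ^ A) < 0 := mul_neg_of_neg_of_pos hneg h1
    linarith [norm_nonneg (g UpperHalfPlane.I)]
  set D : ℝ := max 1 (|(γ 1 0 : ℝ)| + |(γ 1 1 : ℝ)|) with hD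
  have hD1 : 1 ≤ D := le_max_left _ _
  refine ⟨2 * C * D ^ (2 * A + n), by positivity, fun τ hτ => ?_⟩
  have hden : ‖denom γ τ‖ ≤ D * (1 + ‖(τ : ℂ)‖) := by
    rw [ModularGroup.denom_apply]
    calc ‖((γ 1 0 : ℤ) : ℂ) * (τ : ℂ) + ((γ 1 1 : ℤ) : ℂ)‖
        ≤ ‖((γ 1 0 : ℤ) : ℂ) * (τ : ℂ)‖ + ‖((γ 1 1 : ℤ) : ℂ)‖ := norm_add_le _ _
      _ = |(γ 1 0 : ℝ)| * ‖(τ : ℂ)‖ + |(γ 1 1 : ℝ)| := by
          rw [norm_mul]
          simp [Complex.norm_intCast]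
      _ ≤ (|(γ 1 0 : ℝ)| + |(γ 1 1 : ℝ)|) * (1 + ‖(τ : ℂ)‖) := by
          have h0 := abs_nonneg (γ 1 0 : ℝ)
          have h1 := abs_nonneg (γ 1 1 : ℝ)
          have h2 := norm_nonneg (τ : ℂ)
          nlinarith
      _ ≤ D * (1 + ‖(τ : ℂ)‖) := by
          apply mul_le_mul_of_nonneg_right (le_max_right _ _)
          positivity
  set W : ℝ := D * (1 + ‖(τ : ℂ)‖) with hW
  have hW1 : 1 ≤ W := by
    have : (1 : ℝ) ≤ 1 + ‖(τ : ℂ)‖ := by linarith [norm_nonneg (τ : ℂ)]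
    calc (1 : ℝ) = 1 * 1 := by ring
      _ ≤ D * (1 + ‖(τ : ℂ)‖) := mul_le_mul hD1 this zero_le_one (by linarith)
  have hdpos : 0 < ‖denom γ τ‖ := norm_pos_iff.mpr (denom_ne_zero γ τ)
  have him : ((γ • τ).im)⁻¹ ≤ W ^ 2 := by
    rw [ModularGroup.im_smul_eq_div_normSq, inv_div, Complex.normSq_eq_norm_sq]
    calc ‖denom γ τ‖ ^ 2 / τ.im ≤ ‖denom γ τ‖ ^ 2 / 1 := by
          apply div_le_div_of_nonneg_left (by positivity) one_pos hτ
      _ = ‖denom γ τ‖ ^ 2 := by ring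
      _ ≤ W ^ 2 := by
          apply pow_le_pow_left₀ hdpos.le hden
  have himpos : 0 ≤ ((γ • τ).im)⁻¹ := by
    have := (γ • τ).im_pos
    positivity
  rw [SL_slash_apply, norm_mul, neg_neg, zpow_natCast, norm_pow]
  calc ‖g (γ • τ)‖ * ‖denom γ τ‖ ^ n
      ≤ (C * (1 + ((γ • τ).im)⁻¹ ^ A)) * W ^ n := by
        apply mul_le_mul (hgrowth _) (pow_le_pow_left₀ hdpos.le hden n) (by positivity)
        positivity
    _ ≤ (C * (1 + (W ^ 2) ^ A)) * W ^ n := by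
        gcongr
    _ ≤ (C * (2 * W ^ (2 * A))) * W ^ n := by
        have : (1 : ℝ) ≤ W ^ (2 * A) := one_le_pow₀ hW1
        rw [← pow_mul]
        gcongr
        linarith
    _ = 2 * C * W ^ (2 * A + n) := by rw [pow_add]; ring
    _ = 2 * C * D ^ (2 * A + n) * (1 + ‖(τ : ℂ)‖) ^ (2 * A + n) := by
        rw [hW, mul_pow]; ring


/-- Separation lemma: a holomorphic function on `ℍ` which is slash-invariant of weight `-n ≤ 0`
under `Γ₀(N)`, decays exponentially at `i∞` and has at most polynomial growth in `(im z)⁻¹`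
vanishes identically. -/
theorem eq_zero_of_slash_invariant_of_bounds (N : ℕ) [NeZero N] {n : ℕ} {g : ℍ → ℂ} (hg : MDiff g)
    (hinv : ∀ γ : SL(2, ℤ), γ ∈ Gamma0 N → g ∣[-(n : ℤ)] γ = g)
    {C₁ c₀ : ℝ} (hc₀ : 0 < c₀) (hdecay : ∀ z : ℍ, 1 ≤ z.im → ‖g z‖ ≤ C₁ * Real.exp (-c₀ * z.im))
    {C₂ : ℝ} {A : ℕ} (hgrowth : ∀ z : ℍ, ‖g z‖ ≤ C₂ * (1 + (z.im)⁻¹ ^ A)) : g = 0 := by
  classical
  set 𝒢 : Subgroup (GL (Fin 2) ℝ) := (Gamma0 N).map (mapGL ℝ) with h𝒢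
  let gS : SlashInvariantForm 𝒢 (-(n : ℤ)) :=
    { toFun := g
      slash_action_eq' := by
        rintro γ' ⟨γ, hγ, rfl⟩
        exact hinv γ hγ }
  have hgS : (gS : ℍ → ℂ) = g := rfl
  let _ := Fintype.ofFinite (𝒮ℒ ⧸ 𝒢.subgroupOf 𝒮ℒ)
  set G := SlashInvariantForm.norm 𝒮ℒ gS with hG
  have hGcoe : (G : ℍ → ℂ) = ∏ q, quotientFunc gS q := SlashInvariantForm.coe_norm 𝒮ℒ gS
  -- each factor is holomorphic
  have hholo : ∀ q : 𝒮ℒ ⧸ 𝒢.subgroupOf 𝒮ℒ, MDiff (quotientFunc gS q) := by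
    intro q
    induction q using Quotient.inductionOn with
    | h r =>
      rw [quotientFunc_mk, hgS]
      exact hg.slash _ _
  -- each factor is polynomially bounded
  have hpoly1 : ∀ q : 𝒮ℒ ⧸ 𝒢.subgroupOf 𝒮ℒ, ∃ K : ℝ, 0 ≤ K ∧ ∀ τ : ℍ, 1 ≤ τ.im →
      ‖quotientFunc gS q τ‖ ≤ K * (1 + ‖(τ : ℂ)‖) ^ (2 * A + n) := by
    intro q
    induction q using Quotient.inductionOn with
    | h r =>
      obtain ⟨r', ⟨γ, rfl⟩⟩ := r
      obtain ⟨K, hK0, hK⟩ := slash_SL_poly_bound (n := n) hgrowth γ⁻¹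
      refine ⟨K, hK0, fun τ hτ => ?_⟩
      rw [quotientFunc_mk, hgS]
      have : g ∣[-(n : ℤ)] ((mapGL ℝ) γ)⁻¹ = g ∣[-(n : ℤ)] γ⁻¹ := by
        show g ∣[-(n : ℤ)] ((mapGL ℝ) γ)⁻¹ = g ∣[-(n : ℤ)] ((mapGL ℝ) γ⁻¹)
        rw [map_inv]
      rw [this]
      exact hK τ hτ
  choose K hK0 hK using hpoly1
  obtain ⟨M, hM⟩ := Finite.exists_le K
  set B : ℕ := 2 * A + n with hB
  set K' : ℝ := max 1 M with hK'
  have hK'1 : 1 ≤ K' := le_max_left _ _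
  have hpoly : ∀ (q : 𝒮ℒ ⧸ 𝒢.subgroupOf 𝒮ℒ) (τ : ℍ), 1 ≤ τ.im →
      ‖quotientFunc gS q τ‖ ≤ K' * (1 + ‖(τ : ℂ)‖) ^ B := by
    intro q τ hτ
    refine (hK q τ hτ).trans ?_
    apply mul_le_mul_of_nonneg_right ((hM q).trans (le_max_right _ _))
    positivity
  have hC₁ : 0 ≤ C₁ := by
    have h := hdecay UpperHalfPlane.I (by simp)
    by_contra hneg
    rw [not_le] at hneg
    have : C₁ * Real.exp (-c₀ * UpperHalfPlane.I.im) < 0 :=
      mul_neg_of_neg_of_pos hneg (Real.exp_pos _)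
    linarith [norm_nonneg (g UpperHalfPlane.I)]
  -- the identity coset
  set q₀ : 𝒮ℒ ⧸ 𝒢.subgroupOf 𝒮ℒ := ⟦(1 : 𝒮ℒ)⟧ with hq₀
  have hq₀f : quotientFunc gS q₀ = g := by
    rw [hq₀, quotientFunc_mk, hgS]
    simp
  set c : ℕ := (Finset.univ.erase q₀).card with hc
  have hGbound : ∀ τ : ℍ, 1 ≤ τ.im →
      ‖G τ‖ ≤ C₁ * Real.exp (-c₀ * τ.im) * (K' * (1 + ‖(τ : ℂ)‖) ^ B) ^ c := by
    intro τ hτ
    rw [hGcoe, Finset.prod_apply, norm_prod, ← Finset.mul_prod_erase Finset.univ _ (Finset.mem_univ q₀)]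
    apply mul_le_mul
    · rw [hq₀f]; exact hdecay τ hτ
    · calc ∏ q ∈ Finset.univ.erase q₀, ‖quotientFunc gS q τ‖
          ≤ ∏ q ∈ Finset.univ.erase q₀, (K' * (1 + ‖(τ : ℂ)‖) ^ B) :=
            Finset.prod_le_prod (fun q _ => norm_nonneg _) (fun q _ => hpoly q τ hτ)
        _ = (K' * (1 + ‖(τ : ℂ)‖) ^ B) ^ c := by rw [Finset.prod_const]
    · apply Finset.prod_nonneg
      intro q _
      exact norm_nonneg _
    · positivity
  -- periodicity of `G`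
  have hper : Function.Periodic ((G : ℍ → ℂ) ∘ ofComplex) ((1 : ℝ) : ℂ) :=
    SlashInvariantFormClass.periodic_comp_ofComplex G one_mem_strictPeriods_SL
  set P : ℕ := B * c with hP
  set d₀ : ℝ := c₀ / 2 with hd₀
  have hd₀pos : 0 < d₀ := by positivity
  set C₃ : ℝ := C₁ * K' ^ c * (P.factorial * (d₀⁻¹) ^ P) * Real.exp (d₀ * (3 / 2)) with hC₃
  have hC₃0 : 0 ≤ C₃ := by positivity
  have hGdecay : ∀ τ : ℍ, 1 ≤ τ.im → ‖G τ‖ ≤ C₃ * Real.exp (-d₀ * τ.im) := by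
    intro τ hτ
    set m : ℤ := round τ.re with hm
    have him' : 0 < ((τ : ℂ) - (m : ℂ) * ((1 : ℝ) : ℂ)).im := by
      simpa using τ.im_pos
    set τ' : ℍ := ⟨(τ : ℂ) - (m : ℂ) * ((1 : ℝ) : ℂ), him'⟩ with hτ'
    have hGeq : G τ = G τ' := by
      have h1 := hper.sub_int_mul_eq (x := (τ : ℂ)) m
      simp only [Function.comp_apply] at h1
      rw [ofComplex_apply, ofComplex_apply_of_im_pos him'] at h1
      exact h1.symm
    have hτ'im : τ'.im = τ.im := by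
      show ((τ : ℂ) - (m : ℂ) * ((1 : ℝ) : ℂ)).im = τ.im
      simp
    have hτ're : (τ' : ℂ).re = τ.re - m := by
      show ((τ : ℂ) - (m : ℂ) * ((1 : ℝ) : ℂ)).re = τ.re - m
      simp
    have hnorm : ‖(τ' : ℂ)‖ ≤ 1 / 2 + τ.im := by
      calc ‖(τ' : ℂ)‖ ≤ |(τ' : ℂ).re| + |(τ' : ℂ).im| := Complex.norm_le_abs_re_add_abs_im _
        _ ≤ 1 / 2 + τ.im := by
          have h1 : |(τ' : ℂ).re| ≤ 1 / 2 := by rw [hτ're]; exact abs_sub_round τ.re
          have h2 : |(τ' : ℂ).im| = τ.im := by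
            have : (τ' : ℂ).im = τ.im := hτ'im
            rw [this, abs_of_pos τ.im_pos]
          linarith
    have hy : 0 ≤ d₀ * (3 / 2 + τ.im) := by
      have : 0 ≤ 3 / 2 + τ.im := by linarith
      positivity
    have hfact : (3 / 2 + τ.im) ^ P ≤
        (P.factorial * (d₀⁻¹) ^ P) * Real.exp (d₀ * (3 / 2 + τ.im)) := by
      have h1 : (d₀ * (3 / 2 + τ.im)) ^ P ≤ P.factorial * Real.exp (d₀ * (3 / 2 + τ.im)) := by
        have h0 := Real.pow_div_factorial_le_exp (d₀ * (3 / 2 + τ.im)) hy P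
        have hf : (0 : ℝ) < P.factorial := by positivity
        calc (d₀ * (3 / 2 + τ.im)) ^ P
            = (d₀ * (3 / 2 + τ.im)) ^ P / P.factorial * P.factorial := by field_simp
          _ ≤ Real.exp (d₀ * (3 / 2 + τ.im)) * P.factorial :=
              mul_le_mul_of_nonneg_right h0 hf.le
          _ = P.factorial * Real.exp (d₀ * (3 / 2 + τ.im)) := by ring
      have h2 : (3 / 2 + τ.im) ^ P = (d₀⁻¹) ^ P * (d₀ * (3 / 2 + τ.im)) ^ P := by
        rw [← mul_pow, ← mul_assoc, inv_mul_cancel₀ hd₀pos.ne', one_mul]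
      rw [h2]
      calc (d₀⁻¹) ^ P * (d₀ * (3 / 2 + τ.im)) ^ P
          ≤ (d₀⁻¹) ^ P * (P.factorial * Real.exp (d₀ * (3 / 2 + τ.im))) := by
            apply mul_le_mul_of_nonneg_left h1 (by positivity)
        _ = (P.factorial * (d₀⁻¹) ^ P) * Real.exp (d₀ * (3 / 2 + τ.im)) := by ring
    have hb := hGbound τ' (by rw [hτ'im]; exact hτ)
    rw [hτ'im] at hb
    rw [hGeq]
    refine hb.trans ?_
    have h1 : (K' * (1 + ‖(τ' : ℂ)‖) ^ B) ^ c ≤
        K' ^ c * ((P.factorial * (d₀⁻¹) ^ P) * Real.exp (d₀ * (3 / 2 + τ.im))) := by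
      rw [mul_pow, ← pow_mul, ← hP]
      apply mul_le_mul_of_nonneg_left _ (by positivity)
      refine le_trans ?_ hfact
      apply pow_le_pow_left₀ (by positivity)
      linarith
    have hexp : Real.exp (-c₀ * τ.im) * Real.exp (d₀ * (3 / 2 + τ.im))
        = Real.exp (d₀ * (3 / 2)) * Real.exp (-d₀ * τ.im) := by
      rw [← Real.exp_add, ← Real.exp_add]
      congr 1
      rw [hd₀]; ring
    calc C₁ * Real.exp (-c₀ * τ.im) * (K' * (1 + ‖(τ' : ℂ)‖) ^ B) ^ c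
        ≤ C₁ * Real.exp (-c₀ * τ.im) *
            (K' ^ c * ((P.factorial * (d₀⁻¹) ^ P) * Real.exp (d₀ * (3 / 2 + τ.im)))) := by
          apply mul_le_mul_of_nonneg_left h1 (by positivity)
      _ = C₁ * K' ^ c * (P.factorial * (d₀⁻¹) ^ P) *
            (Real.exp (-c₀ * τ.im) * Real.exp (d₀ * (3 / 2 + τ.im))) := by
          ring
      _ = C₃ * Real.exp (-d₀ * τ.im) := by rw [hexp, hC₃]; ring
  -- `G` is a level one modular form
  have hGholo : MDiff (G : ℍ → ℂ) := by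
    rw [hGcoe]
    exact MDifferentiable.prod (fun q _ => hholo q)
  have hGbdd : IsBoundedAtImInfty (G : ℍ → ℂ) := by
    rw [isBoundedAtImInfty_iff]
    refine ⟨C₃, 1, fun z hz => (hGdecay z hz).trans ?_⟩
    calc C₃ * Real.exp (-d₀ * z.im) ≤ C₃ * 1 := by
          apply mul_le_mul_of_nonneg_left _ hC₃0
          rw [Real.exp_le_one_iff]
          have := z.im_pos
          nlinarith
      _ = C₃ := mul_one _
  let Gm : ModularForm 𝒮ℒ (-(n : ℤ) * Nat.card (𝒮ℒ ⧸ 𝒢.subgroupOf 𝒮ℒ)) :=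
    { toSlashInvariantForm := G
      holo' := hGholo
      bdd_at_cusps' := fun {c} hc => by
        rw [OnePoint.isBoundedAt_iff_forall_SL2Z hc]
        intro γ _
        have : (G.toFun) ∣[-(n : ℤ) * Nat.card (𝒮ℒ ⧸ 𝒢.subgroupOf 𝒮ℒ)] γ = G.toFun :=
          G.slash_action_eq' _ ⟨γ, rfl⟩
        rw [this]
        exact hGbdd }
  have hGmcoe : (Gm : ℍ → ℂ) = (G : ℍ → ℂ) := rfl
  have hGzero : (G : ℍ → ℂ) = 0 := by
    rcases Nat.eq_zero_or_pos n with hn | hn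
    · -- weight zero
      have h0 : -(n : ℤ) * (Nat.card (𝒮ℒ ⧸ 𝒢.subgroupOf 𝒮ℒ) : ℤ) = 0 := by simp [hn]
      obtain ⟨c', hc'⟩ := ModularFormClass.levelOne_weight_zero_const (ModularForm.mcast h0 Gm)
      have hc'' : ∀ τ : ℍ, G τ = c' := fun τ => congrFun hc' τ
      have hc0 : c' = 0 := by
        by_contra hne
        have hpos : 0 < ‖c'‖ := norm_pos_iff.mpr hne
        set y : ℝ := max 1 ((C₃ / ‖c'‖ + 1) / d₀) with hy
        have hy1 : 1 ≤ y := le_max_left _ _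
        have hy2 : C₃ / ‖c'‖ + 1 ≤ d₀ * y := by
          have := le_max_right 1 ((C₃ / ‖c'‖ + 1) / d₀)
          rw [div_le_iff₀ hd₀pos] at this
          rw [hy]; linarith
        have hy0 : 0 < y := by linarith
        set τ : ℍ := ⟨⟨0, y⟩, hy0⟩ with hτ
        have hτim : τ.im = y := rfl
        have h1 := hGdecay τ (by rw [hτim]; exact hy1)
        rw [hc'' τ, hτim] at h1
        have hdy : 0 ≤ d₀ * y := by positivity
        have h2 : Real.exp (-d₀ * y) * (1 + d₀ * y) ≤ 1 := by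
          have := Real.add_one_le_exp (d₀ * y)
          rw [neg_mul, Real.exp_neg, inv_mul_le_iff₀ (Real.exp_pos _)]
          linarith
        have h3 : ‖c'‖ * (1 + d₀ * y) ≤ C₃ := by
          calc ‖c'‖ * (1 + d₀ * y) ≤ C₃ * Real.exp (-d₀ * y) * (1 + d₀ * y) := by
                apply mul_le_mul_of_nonneg_right h1 (by linarith)
            _ = C₃ * (Real.exp (-d₀ * y) * (1 + d₀ * y)) := by ring
            _ ≤ C₃ * 1 := mul_le_mul_of_nonneg_left h2 hC₃0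
            _ = C₃ := mul_one _
        have h4 : C₃ + 2 * ‖c'‖ ≤ ‖c'‖ * (1 + d₀ * y) := by
          have h5 : ‖c'‖ * (C₃ / ‖c'‖ + 1) = C₃ + ‖c'‖ := by field_simp
          have h6 : ‖c'‖ * (C₃ / ‖c'‖ + 1) ≤ ‖c'‖ * (d₀ * y) :=
            mul_le_mul_of_nonneg_left hy2 hpos.le
          nlinarith
        linarith
      ext τ
      rw [hc'' τ, hc0]; rfl
    · have hk : -(n : ℤ) * (Nat.card (𝒮ℒ ⧸ 𝒢.subgroupOf 𝒮ℒ) : ℤ) < 0 := by
        have h1 : (0 : ℤ) < (Nat.card (𝒮ℒ ⧸ 𝒢.subgroupOf 𝒮ℒ) : ℤ) := by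
          exact_mod_cast Nat.card_pos
        have h2 : (0 : ℤ) < (n : ℤ) := by exact_mod_cast hn
        nlinarith
      exact ModularFormClass.levelOne_neg_weight_eq_zero hk Gm
  rw [hGcoe] at hGzero
  obtain ⟨q, -, hq⟩ := (UpperHalfPlane.prod_eq_zero_iff (fun q _ => hholo q)).mp hGzero
  induction q using Quotient.inductionOn with
  | h r =>
    rw [quotientFunc_mk, hgS] at hq
    have h1 := congrArg (fun f => f ∣[-(n : ℤ)] (r.val)) hq
    simp only [← SlashAction.slash_mul, inv_mul_cancel, SlashAction.slash_one,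
      SlashAction.zero_slash] at h1
    exact h1

end Fermat.Agent.S22_helper21
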