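import Fermat.Agent.S22_helper21.Separation
import Fermat.Agent.S22_helper21.Decay

set_option autoImplicit false

open UpperHalfPlane Derivative CongruenceSubgroup ModularForm
open scoped MatrixGroups ModularForm Manifold Topology Real

namespace Fermat.Agent.S22_helper21

theorem iterate_D_mdiff' (j : ℕ) {F : ℍ → ℂ} (hF : MDiff F) : MDiff (D^[j] F) := by
  induction j generalizing F with
  | zero => simpa using hF
  | succ j ih =>
    rw [Function.iterate_succ_apply]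
    exact ih (normalizedDerivOfComplex_mdifferentiable hF)

theorem iterate_D_zero' (j : ℕ) : D^[j] (0 : ℍ → ℂ) = 0 := by
  induction j with
  | zero => rfl
  | succ j ih =>
    rw [Function.iterate_succ_apply]
    have : D (0 : ℍ → ℂ) = 0 := normalizedDerivOfComplex_const 0
    rw [this, ih]

/-- Iterated decay propagation. -/
theorem decay_of_iterate_D_decay (m : ℕ) {E : ℍ → ℂ} (hE : MDiff E) (hzero : IsZeroAtImInfty E)
    {C c : ℝ} {A : ℕ} (hc : 0 < c) (hC : 0 ≤ C)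
    (h : ∀ w : ℍ, ‖D^[m] E w‖ ≤ C * (w.im)⁻¹ ^ A * Real.exp (-c * w.im)) :
    ∃ C' : ℝ, 0 ≤ C' ∧ ∀ z : ℍ, ‖E z‖ ≤ C' * (z.im)⁻¹ ^ A * Real.exp (-c * z.im) := by
  induction m generalizing E with
  | zero => exact ⟨C, hC, fun z => by simpa using h z⟩
  | succ m ih =>
    rw [Function.iterate_succ_apply] at h
    obtain ⟨C₁, hC₁, hb⟩ := ih (normalizedDerivOfComplex_mdifferentiable hE)
      (isZeroAtImInfty_D hE hzero) h
    exact ⟨2 * π * C₁ / c, by positivity, decay_of_D_decay hE hzero hc hC₁ hb⟩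

/-- **Separation** (injectivity of the Eichler–Shimura map, in the form needed for `S22`):
if `E` is holomorphic on `ℍ`, tends to `0` at `i∞`, is an `m`-fold `D`-antiderivative of the cusp
form `f` of weight `m + 1` on `Γ₀(N)`, and is slash-invariant of weight `1 - m` under `Γ₀(N)`,
then `f = 0`. -/
theorem separation (N : ℕ) [NeZero N] (m : ℕ) (hm : 1 ≤ m)
    (f : CuspForm (CongruenceSubgroup.Gamma0 N) ((m : ℤ) + 1)) (E : ℍ → ℂ) (hE : MDiff E)
    (hzero : IsZeroAtImInfty E) (hD : D^[m] E = f)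
    (hinv : ∀ γ : SL(2, ℤ), γ ∈ CongruenceSubgroup.Gamma0 N → E ∣[(1 : ℤ) - m] γ = E) :
    f = 0 := by
  obtain ⟨C, c, A, hC, hc, hf⟩ := cuspForm_decay_bound N (by positivity : (0 : ℤ) ≤ (m : ℤ) + 1) f
  have hf' : ∀ w : ℍ, ‖D^[m] E w‖ ≤ C * (w.im)⁻¹ ^ A * Real.exp (-c * w.im) := by
    intro w; rw [hD]; exact hf w
  obtain ⟨C', hC', hb⟩ := decay_of_iterate_D_decay m hE hzero hc hC hf'
  have hwt : (1 : ℤ) - m = -((m - 1 : ℕ) : ℤ) := by
    rw [Nat.cast_sub hm]; simp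
  have hinv' : ∀ γ : SL(2, ℤ), γ ∈ CongruenceSubgroup.Gamma0 N →
      E ∣[-((m - 1 : ℕ) : ℤ)] γ = E := by
    intro γ hγ; rw [← hwt]; exact hinv γ hγ
  have hdecay : ∀ z : ℍ, 1 ≤ z.im → ‖E z‖ ≤ C' * Real.exp (-c * z.im) := by
    intro z hz
    refine (hb z).trans ?_
    apply mul_le_mul_of_nonneg_right _ (Real.exp_pos _).le
    have h1 : (z.im)⁻¹ ^ A ≤ 1 := by
      apply pow_le_one₀ (by positivity)
      exact inv_le_one_of_one_le₀ hz
    calc C' * (z.im)⁻¹ ^ A ≤ C' * 1 := mul_le_mul_of_nonneg_left h1 hC'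
      _ = C' := mul_one _
  have hgrowth : ∀ z : ℍ, ‖E z‖ ≤ C' * (1 + (z.im)⁻¹ ^ A) := by
    intro z
    refine (hb z).trans ?_
    have h1 : Real.exp (-c * z.im) ≤ 1 := by
      rw [Real.exp_le_one_iff]
      have := z.im_pos
      nlinarith
    have h2 : (0 : ℝ) ≤ (z.im)⁻¹ ^ A := by
      have := z.im_pos
      positivity
    calc C' * (z.im)⁻¹ ^ A * Real.exp (-c * z.im) ≤ C' * (z.im)⁻¹ ^ A * 1 :=
          mul_le_mul_of_nonneg_left h1 (by positivity)
      _ = C' * (z.im)⁻¹ ^ A := mul_one _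
      _ ≤ C' * (1 + (z.im)⁻¹ ^ A) := by
          apply mul_le_mul_of_nonneg_left _ hC'
          linarith
  have hE0 : E = 0 :=
    eq_zero_of_slash_invariant_of_bounds N hE hinv' hc hdecay hgrowth
  have hf0 : (f : ℍ → ℂ) = 0 := by
    rw [← hD, hE0, iterate_D_zero']
  exact DFunLike.coe_injective hf0

end Fermat.Agent.S22_helper21
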